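import Mathlib
import Fermat.Agent.LT.T1.Spec

/-!
# Row LT, tower T1, sub-leaf T1.04 `LeafAddFundDom` (helper848)

OFF-MAIN.  `leafAddFundDom848 K : T1.LeafAddFundDom K`, i.e.
`LocCompC K → AdeleLatticeC K → AddFundDomC K`, verbatim against `LT/T1/Spec.lean`
(helper54@675fbadd3).

Abstract core (`exists_strict_fundDom848`): a countable subgroup `Γ` of a Hausdorff topological
additive group `A` (Borel σ-algebra) which meets a neighbourhood of `0` in `{0}` only, and a
compact `C` with `Γ + C = A`: there is a Borel set `D ⊆ C` which contains exactly one point of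
every coset `x + Γ`.  (Bourbaki, Intégration VII §2 no. 10; Weil BNT II §4 Lemma 1.)
Construction: `V` open with `(V - V) ∩ Γ = {0}`, `C ⊆ ⋃ i, (f i + V)` (finitely many points,
enumerated by `ℕ`), `D = {x ∈ C | ∃ i, x ∈ f i + V ∧ ∀ j < i, ∀ γ ∈ Γ, γ + x ∉ (f j + V) ∩ C}`.
-/

set_option autoImplicit false
set_option linter.style.haveILetI false

open MeasureTheory Set Topology

noncomputable section

namespace Fermat.Agent.LT.T1.H848

section Abstract

variable {A : Type*} [AddCommGroup A] [TopologicalSpace A] [IsTopologicalAddGroup A]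

/-- A subgroup meeting an open neighbourhood of `0` only in `0` has an open neighbourhood `V`
of `0` such that two points of a translate of `V` which are congruent modulo `Γ` are equal. -/
theorem exists_open_sub_sep848 (Γ : AddSubgroup A) {U : Set A} (hU : IsOpen U) (h0 : (0 : A) ∈ U)
    (hUΓ : ∀ γ ∈ Γ, γ ∈ U → γ = 0) :
    ∃ V : Set A, IsOpen V ∧ (0 : A) ∈ V ∧
      ∀ a x y : A, x - a ∈ V → y - a ∈ V → x - y ∈ Γ → x = y := by
  have hcont : ContinuousAt (fun p : A × A => p.1 - p.2) ((0 : A), (0 : A)) :=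
    (continuous_fst.sub continuous_snd).continuousAt
  have hmem : (fun p : A × A => p.1 - p.2) ⁻¹' U ∈ 𝓝 ((0 : A), (0 : A)) := by
    apply hcont
    simpa using hU.mem_nhds h0
  rw [nhds_prod_eq, Filter.mem_prod_iff] at hmem
  obtain ⟨V₁, hV₁, V₂, hV₂, hsub⟩ := hmem
  obtain ⟨W, hWsub, hWo, hW0⟩ := mem_nhds_iff.mp (Filter.inter_mem hV₁ hV₂)
  refine ⟨W, hWo, hW0, ?_⟩
  intro a x y hx hy hxy
  have h1 : (x - a, y - a) ∈ V₁ ×ˢ V₂ := ⟨(hWsub hx).1, (hWsub hy).2⟩
  have h2 : (x - a) - (y - a) ∈ U := hsub h1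
  have h3 : (x - a) - (y - a) = x - y := by abel
  rw [h3] at h2
  exact sub_eq_zero.mp (hUΓ _ hxy h2)

variable [MeasurableSpace A] [BorelSpace A] [T2Space A]

/-- **Strict Borel fundamental domain** inside a compact set whose translates cover. -/
theorem exists_strict_fundDom848 (Γ : AddSubgroup A) [Countable Γ]
    {U : Set A} (hU : IsOpen U) (h0 : (0 : A) ∈ U) (hUΓ : ∀ γ ∈ Γ, γ ∈ U → γ = 0)
    {C : Set A} (hC : IsCompact C) (hcov : ∀ x : A, ∃ γ ∈ Γ, x - γ ∈ C) :
    ∃ D : Set A, MeasurableSet D ∧ D ⊆ C ∧ ∀ x : A, ∃! γ : Γ, γ +ᵥ x ∈ D := by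
  obtain ⟨V, hVo, hV0, hVsep⟩ := exists_open_sub_sep848 Γ hU h0 hUΓ
  -- finitely many translates of `V` cover `C`
  obtain ⟨t, htC, htcov⟩ := hC.elim_nhds_subcover (fun a => {x | x - a ∈ V})
    (fun a _ => by
      have ho : IsOpen {x : A | x - a ∈ V} := hVo.preimage (continuous_id.sub continuous_const)
      exact ho.mem_nhds (by simpa using hV0))
  have hCne : C.Nonempty := by
    obtain ⟨γ, _, hγ⟩ := hcov 0
    exact ⟨_, hγ⟩
  have htne : (t : Set A).Nonempty := by
    obtain ⟨c, hc⟩ := hCne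
    have := htcov hc
    simp only [mem_iUnion] at this
    obtain ⟨a, ha, _⟩ := this
    exact ⟨a, ha⟩
  obtain ⟨f, hf⟩ := (t.countable_toSet).exists_eq_range htne
  -- the pieces
  set W : ℕ → Set A := fun i => {x | x - f i ∈ V} with hW
  have hWo : ∀ i, IsOpen (W i) := fun i => hVo.preimage (continuous_id.sub continuous_const)
  have hCW : ∀ c ∈ C, ∃ i, c ∈ W i := by
    intro c hc
    have := htcov hc
    simp only [mem_iUnion] at this
    obtain ⟨a, ha, hca⟩ := this
    have ha' : a ∈ (t : Set A) := ha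
    rw [hf] at ha'
    obtain ⟨i, rfl⟩ := ha'
    exact ⟨i, hca⟩
  have hCm : MeasurableSet C := hC.isClosed.measurableSet
  set D : Set A := {x | x ∈ C ∧ ∃ i, x ∈ W i ∧ ∀ j < i, ∀ γ : Γ, ((γ : A) + x) ∉ W j ∩ C} with hD
  have hDm : MeasurableSet D := by
    have hD' : D = C ∩ ⋃ i, (W i ∩ ⋂ j, ⋂ (_ : j < i), ⋂ γ : Γ,
        ((fun x : A => (γ : A) + x) ⁻¹' (W j ∩ C))ᶜ) := by
      ext x
      simp only [hD, mem_ofPred_eq, mem_inter_iff, mem_iUnion, mem_iInter, mem_compl_iff,
        mem_preimage, not_and]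
    rw [hD']
    refine hCm.inter (MeasurableSet.iUnion fun i => (hWo i).measurableSet.inter ?_)
    refine MeasurableSet.iInter fun j => MeasurableSet.iInter fun _ =>
      MeasurableSet.iInter fun γ => MeasurableSet.compl ?_
    exact ((continuous_const.add continuous_id).measurable) ((hWo j).measurableSet.inter hCm)
  refine ⟨D, hDm, fun x hx => hx.1, ?_⟩
  -- two congruent points of `D` are equal
  have huniq : ∀ d d' : A, d ∈ D → d' ∈ D → d' - d ∈ Γ → d' = d := by
    intro d d' hd hd' hγ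
    obtain ⟨hdC, i, hdi, hdmin⟩ := hd
    obtain ⟨hd'C, i', hd'i, hd'min⟩ := hd'
    have hii' : i = i' := by
      rcases lt_trichotomy i i' with h | h | h
      · exfalso
        refine hd'min i h ⟨d - d', ?_⟩ ⟨?_, ?_⟩
        · have : d - d' = -(d' - d) := by abel
          rw [this]; exact Γ.neg_mem hγ
        · simpa using hdi
        · simpa using hdC
      · exact h
      · exfalso
        refine hdmin i' h ⟨d' - d, hγ⟩ ⟨?_, ?_⟩
        · simpa using hd'i
        · simpa using hd'C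
    subst hii'
    exact hVsep (f i) d' d hd'i hdi hγ
  intro x
  -- existence
  have hI : ∃ i, ∃ γ : Γ, ((γ : A) + x) ∈ W i ∩ C := by
    obtain ⟨γ, hγ, hxγ⟩ := hcov x
    obtain ⟨i, hi⟩ := hCW _ hxγ
    refine ⟨i, ⟨-γ, Γ.neg_mem hγ⟩, ?_⟩
    have : (-γ) + x = x - γ := by abel
    simp only [this]
    exact ⟨hi, hxγ⟩
  classical
  obtain ⟨γ₀, hγ₀⟩ := Nat.find_spec hI
  have hmin : ∀ j < Nat.find hI, ¬ ∃ γ : Γ, ((γ : A) + x) ∈ W j ∩ C := fun j hj => Nat.find_min hI hj
  have hmem : γ₀ +ᵥ x ∈ D := by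
    refine ⟨hγ₀.2, Nat.find hI, hγ₀.1, ?_⟩
    intro j hj γ hγ
    apply hmin j hj
    refine ⟨γ + γ₀, ?_⟩
    have : ((γ + γ₀ : Γ) : A) + x = (γ : A) + ((γ₀ : A) + x) := by push_cast; abel
    rw [this]
    exact hγ
  refine ⟨γ₀, hmem, ?_⟩
  intro γ hγ
  have hmem' : (γ₀ : A) + x ∈ D := hmem
  have hγ' : (γ : A) + x ∈ D := hγ
  have h1 : (γ : A) + x = (γ₀ : A) + x := by
    apply huniq _ _ hmem' hγ'
    have : (γ : A) + x - ((γ₀ : A) + x) = ((γ - γ₀ : Γ) : A) := by push_cast; abel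
    rw [this]
    exact (γ - γ₀).2
  exact Subtype.ext (add_right_cancel h1)

end Abstract

section Adelic

open IsDedekindDomain NumberField
open Fermat.Agent.LT.H556.A0 Fermat.Agent.LT.T1

variable (K : Type) [Field K] [NumberField K]

/-- A number field is countable (finite-dimensional over `ℚ`). -/
theorem countable_numberField848 : Countable K := by
  have e : K ≃ₗ[ℚ] (Fin (Module.finrank ℚ K) → ℚ) := (Module.finBasis ℚ K).equivFun
  exact e.toEquiv.injective.countable

/-- The principal adeles are countable. -/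
theorem countable_princ848 : Countable (princ K) := by
  haveI := countable_numberField848 K
  exact (AddMonoidHom.rangeRestrict_surjective
    ((algebraMap K (Adl K)).toAddMonoidHom)).countable

/-- **T1.04** `LeafAddFundDom`, verbatim against `LT/T1/Spec.lean` (helper54@675fbadd3). -/
theorem leafAddFundDom848 : LeafAddFundDom K := by
  intro hLC hAL
  obtain ⟨⟨_, ht2, _⟩, -⟩ := hLC
  obtain ⟨hdisc, -, C, hC, hcov⟩ := hAL
  letI : MeasurableSpace (Adl K) := borel (Adl K)
  haveI : BorelSpace (Adl K) := ⟨rfl⟩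
  haveI := countable_princ848 K
  intro μ hμ
  haveI : μ.IsAddHaarMeasure := hμ
  -- an open neighbourhood of `0` meeting `princ K` in `{0}`
  obtain ⟨U, hUo, hUeq⟩ := isOpen_induced_iff.mp (isOpen_discrete ({0} : Set (princ K)))
  have h0U : (0 : Adl K) ∈ U := by
    have : (0 : princ K) ∈ Subtype.val ⁻¹' U := by rw [hUeq]; rfl
    exact this
  have hUΓ : ∀ γ ∈ princ K, γ ∈ U → γ = 0 := by
    intro γ hγ hγU
    have : (⟨γ, hγ⟩ : princ K) ∈ Subtype.val ⁻¹' U := hγU
    rw [hUeq] at this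
    exact congrArg Subtype.val (Set.mem_singleton_iff.mp this)
  have hcov' : ∀ x : Adl K, ∃ γ ∈ princ K, x - γ ∈ C := by
    intro x
    obtain ⟨ξ, hξ⟩ := hcov x
    exact ⟨algebraMap K (Adl K) ξ, ⟨ξ, rfl⟩, hξ⟩
  obtain ⟨D, hDm, hDC, hDex⟩ := exists_strict_fundDom848 (princ K) hUo h0U hUΓ hC hcov'
  have hfd : IsAddFundamentalDomain (princ K) D μ :=
    IsAddFundamentalDomain.mk' hDm.nullMeasurableSet hDex
  refine ⟨D, hDm, hfd, ?_, ?_, ?_⟩
  · exact hC.of_isClosed_subset isClosed_closure (closure_minimal hDC hC.isClosed)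
  · have hne : μ ≠ 0 := NeZero.ne μ
    exact pos_iff_ne_zero.mpr (hfd.measure_ne_zero hne)
  · exact lt_of_le_of_lt (measure_mono hDC) hC.measure_lt_top

end Adelic

end Fermat.Agent.LT.T1.H848

end
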